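/-
S06 glue, part 1 (helper80): elementary facts on the integral Frey model `P.freyCurveInt`.

* `freyCurveInt_map`               : `P.freyCurveInt.map (Int.castRingHom ℚ) = P.freyCurve`
* `freyCurveInt_isIntegralModelOf` : `P.freyCurveInt.IsIntegralModelOf P.freyCurve`
* `freyCurveInt_Δ`                 : `256 * Δ = (a^p)^2 (b^p)^2 (c^p)^2`
* `freyCurveInt_c₄`                : `c₄ = (a^p)^2 + a^p b^p + (b^p)^2`
* `freyCurveInt_Δ_ne_zero`, `freyCurveInt_isSemistableModel`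
* `prime_dvd_abc_of_dvd_Δ`, `prime_dvd_Δ_iff`
-/
import Mathlib
import Fermat.Prelude.Def_FLTPrelim_FreyPackage
import Fermat.Prelude.Def_FLTPrelim_Modularity

set_option autoImplicit false

namespace Fermat.Agent.S06.FreyModel

open WeierstrassCurve

variable (P : FreyPackage)

/-! ### integer arithmetic -/

theorem two_dvd_b : (2 : ℤ) ∣ P.b := (ZMod.intCast_zmod_eq_zero_iff_dvd P.b 2).1 P.hb2

theorem four_dvd_a_sub : (4 : ℤ) ∣ P.a - 3 := by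
  have : ((P.a - 3 : ℤ) : ZMod 4) = 0 := by
    push_cast; rw [P.ha4]; decide
  exact_mod_cast (ZMod.intCast_zmod_eq_zero_iff_dvd (P.a - 3) 4).1 this

theorem not_two_dvd_a : ¬ (2 : ℤ) ∣ P.a := by
  intro h
  obtain ⟨k, hk⟩ := four_dvd_a_sub P
  obtain ⟨m, hm⟩ := h
  omega

theorem four_dvd_a_pow_add_one : (4 : ℤ) ∣ P.a ^ P.p + 1 := by
  have h1 : P.a ≡ -1 [ZMOD 4] := by
    obtain ⟨k, hk⟩ := four_dvd_a_sub P
    refine (Int.modEq_iff_dvd).mpr ⟨-k - 1, ?_⟩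
    linarith
  have h2 : P.a ^ P.p ≡ (-1) ^ P.p [ZMOD 4] := h1.pow P.p
  rw [P.hp_odd.neg_one_pow] at h2
  have := (Int.modEq_iff_dvd.mp h2.symm)
  simpa [sub_neg_eq_add] using this

theorem thirtytwo_dvd_b_pow : (32 : ℤ) ∣ P.b ^ P.p := by
  have h1 : (2 : ℤ) ^ P.p ∣ P.b ^ P.p := pow_dvd_pow_of_dvd (two_dvd_b P) _
  have h2 : (2 : ℤ) ^ 5 ∣ 2 ^ P.p := pow_dvd_pow 2 P.hp5
  exact (by norm_num : (32 : ℤ) = 2 ^ 5) ▸ h2.trans h1

theorem four_dvd : (4 : ℤ) ∣ P.b ^ P.p - 1 - P.a ^ P.p := by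
  have h1 : (4 : ℤ) ∣ P.b ^ P.p := (by norm_num : (4 : ℤ) ∣ 32).trans (thirtytwo_dvd_b_pow P)
  have h2 := four_dvd_a_pow_add_one P
  have : P.b ^ P.p - 1 - P.a ^ P.p = P.b ^ P.p - (P.a ^ P.p + 1) := by ring
  rw [this]; exact dvd_sub h1 h2

theorem sixteen_dvd : (16 : ℤ) ∣ -(P.a ^ P.p) * P.b ^ P.p :=
  Dvd.dvd.mul_left ((by norm_num : (16 : ℤ) ∣ 32).trans (thirtytwo_dvd_b_pow P)) _

/-- `4 * a₂ = b^p - 1 - a^p` for the integral Frey model. -/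
theorem four_mul_a₂ : 4 * P.freyCurveInt.a₂ = P.b ^ P.p - 1 - P.a ^ P.p := by
  show 4 * ((P.b ^ P.p - 1 - P.a ^ P.p) / 4) = _
  exact Int.mul_ediv_cancel' (four_dvd P)

/-- `16 * a₄ = -(a^p b^p)` for the integral Frey model. -/
theorem sixteen_mul_a₄ : 16 * P.freyCurveInt.a₄ = -(P.a ^ P.p) * P.b ^ P.p := by
  show 16 * (-(P.a ^ P.p) * P.b ^ P.p / 16) = _
  exact Int.mul_ediv_cancel' (sixteen_dvd P)

/-! ### the integral model -/

theorem freyCurveInt_map : P.freyCurveInt.map (Int.castRingHom ℚ) = P.freyCurve := by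
  have h2 : ((P.freyCurveInt.a₂ : ℤ) : ℚ) = ((P.b : ℚ) ^ P.p - 1 - (P.a : ℚ) ^ P.p) / 4 := by
    have := four_mul_a₂ P
    have h : ((4 * P.freyCurveInt.a₂ : ℤ) : ℚ) = ((P.b ^ P.p - 1 - P.a ^ P.p : ℤ) : ℚ) := by
      rw [this]
    push_cast at h
    linarith
  have h4 : ((P.freyCurveInt.a₄ : ℤ) : ℚ) = -((P.a : ℚ) ^ P.p) * ((P.b : ℚ) ^ P.p) / 16 := by
    have := sixteen_mul_a₄ P
    have h : ((16 * P.freyCurveInt.a₄ : ℤ) : ℚ) = ((-(P.a ^ P.p) * P.b ^ P.p : ℤ) : ℚ) := by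
      rw [this]
    push_cast at h
    linarith
  ext
  · simp [FreyPackage.freyCurveInt, FreyPackage.freyCurve]
  · simpa [FreyPackage.freyCurve] using h2
  · simp [FreyPackage.freyCurveInt, FreyPackage.freyCurve]
  · simpa [FreyPackage.freyCurve] using h4
  · simp [FreyPackage.freyCurveInt, FreyPackage.freyCurve]

theorem freyCurveInt_isIntegralModelOf : P.freyCurveInt.IsIntegralModelOf P.freyCurve :=
  ⟨1, by rw [one_smul, freyCurveInt_map]⟩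

/-! ### discriminant and `c₄` -/

theorem freyCurveInt_Δ :
    256 * P.freyCurveInt.Δ = (P.a ^ P.p) ^ 2 * (P.b ^ P.p) ^ 2 * (P.c ^ P.p) ^ 2 := by
  have h2 := four_mul_a₂ P
  have h4 := sixteen_mul_a₄ P
  have hc : P.c ^ P.p = P.a ^ P.p + P.b ^ P.p := P.hFLT.symm
  have e1 : P.freyCurveInt.a₁ = 1 := rfl
  have e3 : P.freyCurveInt.a₃ = 0 := rfl
  have e6 : P.freyCurveInt.a₆ = 0 := rfl
  rw [hc]
  simp only [WeierstrassCurve.Δ, WeierstrassCurve.b₂, WeierstrassCurve.b₄, WeierstrassCurve.b₆,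
    WeierstrassCurve.b₈, e1, e3, e6]
  set A := P.a ^ P.p
  set B := P.b ^ P.p
  set x := P.freyCurveInt.a₂
  set y := P.freyCurveInt.a₄
  have hA : B - A = 4 * x + 1 := by linarith
  have hy : A * B = -16 * y := by linarith
  -- 256 * Δ as a polynomial in x, y
  have : (A ^ 2 * B ^ 2 * (A + B) ^ 2) = (A * B) ^ 2 * ((B - A) ^ 2 + 4 * (A * B)) := by ring
  rw [this, hA, hy]
  ring

theorem freyCurveInt_c₄ :
    P.freyCurveInt.c₄ = (P.a ^ P.p) ^ 2 + P.a ^ P.p * P.b ^ P.p + (P.b ^ P.p) ^ 2 := by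
  have h2 := four_mul_a₂ P
  have h4 := sixteen_mul_a₄ P
  have e1 : P.freyCurveInt.a₁ = 1 := rfl
  have e3 : P.freyCurveInt.a₃ = 0 := rfl
  simp only [WeierstrassCurve.c₄, WeierstrassCurve.b₂, WeierstrassCurve.b₄, e1, e3]
  set A := P.a ^ P.p
  set B := P.b ^ P.p
  set x := P.freyCurveInt.a₂
  set y := P.freyCurveInt.a₄
  have hA : B - A = 4 * x + 1 := by linarith
  have hy : A * B = -16 * y := by linarith
  have : A ^ 2 + A * B + B ^ 2 = (B - A) ^ 2 + 3 * (A * B) := by ring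
  rw [this, hA, hy]
  ring

theorem freyCurveInt_Δ_ne_zero : P.freyCurveInt.Δ ≠ 0 := by
  intro h
  have := freyCurveInt_Δ P
  rw [h, mul_zero] at this
  have ha : P.a ^ P.p ≠ 0 := pow_ne_zero _ P.ha0
  have hb : P.b ^ P.p ≠ 0 := pow_ne_zero _ P.hb0
  have hc : P.c ^ P.p ≠ 0 := pow_ne_zero _ P.hc0
  exact (mul_ne_zero (mul_ne_zero (pow_ne_zero 2 ha) (pow_ne_zero 2 hb)) (pow_ne_zero 2 hc))
    this.symm

/-- A prime dividing the discriminant of the integral Frey model divides `abc`. -/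
theorem prime_dvd_abc_of_dvd_Δ {q : ℕ} (hq : q.Prime) (h : (q : ℤ) ∣ P.freyCurveInt.Δ) :
    (q : ℤ) ∣ P.a * P.b * P.c := by
  have hq' : Prime (q : ℤ) := Nat.prime_iff_prime_int.mp hq
  have h1 : (q : ℤ) ∣ (P.a ^ P.p) ^ 2 * (P.b ^ P.p) ^ 2 * (P.c ^ P.p) ^ 2 := by
    rw [← freyCurveInt_Δ]; exact Dvd.dvd.mul_left h _
  rcases hq'.dvd_or_dvd h1 with h2 | h2
  · rcases hq'.dvd_or_dvd h2 with h3 | h3
    · exact Dvd.dvd.mul_right (Dvd.dvd.mul_right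
        (hq'.dvd_of_dvd_pow (hq'.dvd_of_dvd_pow h3)) _) _
    · exact Dvd.dvd.mul_right (Dvd.dvd.mul_left
        (hq'.dvd_of_dvd_pow (hq'.dvd_of_dvd_pow h3)) _) _
  · exact Dvd.dvd.mul_left (hq'.dvd_of_dvd_pow (hq'.dvd_of_dvd_pow h2)) _

/-- No prime divides two of `a, b, c`... here: a prime dividing `a` does not divide `b`. -/
theorem not_dvd_both_ab {q : ℤ} (hq : Prime q) (ha : q ∣ P.a) (hb : q ∣ P.b) : False := by
  have h : q ∣ gcd P.a P.b := dvd_gcd ha hb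
  rw [P.hgcdab] at h
  exact hq.not_isUnit (isUnit_of_dvd_one h)

theorem not_dvd_both_ac {q : ℤ} (hq : Prime q) (ha : q ∣ P.a) (hc : q ∣ P.c) : False := by
  have h : q ∣ gcd P.a P.c := dvd_gcd ha hc
  rw [P.hgcdac] at h
  exact hq.not_isUnit (isUnit_of_dvd_one h)

theorem not_dvd_both_bc {q : ℤ} (hq : Prime q) (hb : q ∣ P.b) (hc : q ∣ P.c) : False := by
  have h : q ∣ gcd P.b P.c := dvd_gcd hb hc
  rw [P.hgcdbc] at h
  exact hq.not_isUnit (isUnit_of_dvd_one h)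

/-- The integral Frey model is semistable: no prime divides both `Δ` and `c₄`. -/
theorem freyCurveInt_isSemistableModel : P.freyCurveInt.IsSemistableModel := by
  intro q hq hΔ hc4
  have hq' : Prime (q : ℤ) := Nat.prime_iff_prime_int.mp hq
  rw [freyCurveInt_c₄] at hc4
  have habc := prime_dvd_abc_of_dvd_Δ P hq hΔ
  rcases hq'.dvd_or_dvd habc with h | h
  · rcases hq'.dvd_or_dvd h with h | h
    · -- q ∣ a : then q ∣ (b^p)^2
      have hA : (q : ℤ) ∣ P.a ^ P.p := dvd_pow h P.hp0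
      have : (q : ℤ) ∣ (P.b ^ P.p) ^ 2 := by
        have h1 : (q : ℤ) ∣ (P.a ^ P.p) ^ 2 + P.a ^ P.p * P.b ^ P.p :=
          dvd_add (dvd_pow hA two_ne_zero) (Dvd.dvd.mul_right hA _)
        exact (dvd_add_right h1).mp hc4
      exact not_dvd_both_ab P hq' h (hq'.dvd_of_dvd_pow (hq'.dvd_of_dvd_pow this))
    · -- q ∣ b : then q ∣ (a^p)^2
      have hB : (q : ℤ) ∣ P.b ^ P.p := dvd_pow h P.hp0
      have : (q : ℤ) ∣ (P.a ^ P.p) ^ 2 := by
        have h1 : (q : ℤ) ∣ P.a ^ P.p * P.b ^ P.p + (P.b ^ P.p) ^ 2 :=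
          dvd_add (Dvd.dvd.mul_left hB _) (dvd_pow hB two_ne_zero)
        rw [add_assoc] at hc4
        exact (dvd_add_left h1).mp hc4
      exact not_dvd_both_ab P hq' (hq'.dvd_of_dvd_pow (hq'.dvd_of_dvd_pow this)) h
  · -- q ∣ c : c₄ = (c^p)^2 - a^p b^p
    have hC : (q : ℤ) ∣ P.c ^ P.p := dvd_pow h P.hp0
    have hc : P.c ^ P.p = P.a ^ P.p + P.b ^ P.p := P.hFLT.symm
    have e : (P.a ^ P.p) ^ 2 + P.a ^ P.p * P.b ^ P.p + (P.b ^ P.p) ^ 2
        = (P.c ^ P.p) ^ 2 - P.a ^ P.p * P.b ^ P.p := by rw [hc]; ring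
    rw [e] at hc4
    have : (q : ℤ) ∣ P.a ^ P.p * P.b ^ P.p := by
      have h1 : (q : ℤ) ∣ (P.c ^ P.p) ^ 2 := dvd_pow hC two_ne_zero
      exact (dvd_sub_right h1).mp hc4
    rcases hq'.dvd_or_dvd this with h' | h'
    · exact not_dvd_both_ac P hq' (hq'.dvd_of_dvd_pow h') h
    · exact not_dvd_both_bc P hq' (hq'.dvd_of_dvd_pow h') h

end Fermat.Agent.S06.FreyModel
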