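/-
S06 glue, part 2 (helper80): S06 from characteristic-zero modularity of an integral model of the
Frey curve at a level supported on `abc`.

* `modularRepOfLevel_of_isModularModelOfLevel` : if an integral model `W` of `P.freyCurve` is
  modular of level `N` (char. 0, `a_ℓ(f) = a_ℓ(W)`), then `P.ModularRepOfLevel N`.
* `modularRepOfLevel_of_isResiduallyModularOfLevel` : the same from residual modularity at `P.p`.
* `isConductorLevel_conductorLevel` : `rad |Δ(freyCurveInt)|` is a conductor level of `P`.
* `isConductorLevel_of_exact` : so is every squarefree `N > 0` whose primes are bad for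
  `freyCurveInt`.
* `s06_of_exactConductorLevel` : `Mlc1IsModularModelOfExactConductorLevel P.freyCurveInt → S06`
  (route R1: output of S59).
* `s06_of_conductorLevel` : `P.freyCurveInt.IsModularModelOfLevel P.freyCurveInt.conductorLevel → S06`
  (route R2: output of S58).
* `s06_of_residual` : residual modularity at `P.p` of `freyCurveInt` at a level supported on the
  bad primes gives S06.
-/
import Mathlib
import Fermat.Prelude.Def_FLTPrelim_FreyPackage
import Fermat.Prelude.Def_FLTPrelim_Modularity
import Fermat.Prelude.Def_FLTPrelim_ModularRep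
import Fermat.Prelude.Def_FreyPackage_IsConductorLevel
import Fermat.Prelude.Def_WeierstrassCurve_ConductorLevel
import Fermat.Prelude.Def_WeierstrassCurve_Mlc1RowStatement
import Fermat.Agent.S06.FreyModel

set_option autoImplicit false

namespace Fermat.Agent.S06.Glue

open WeierstrassCurve CuspForm FreyPackage
open Fermat.Agent.S06.FreyModel

variable (P : FreyPackage)

/-- Residual modularity at `P.p` of any integral model of the Frey curve gives
`P.ModularRepOfLevel`. -/
theorem modularRepOfLevel_of_isResiduallyModularOfLevel {W : WeierstrassCurve ℤ}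
    (hW : W.IsIntegralModelOf P.freyCurve) {N : ℕ}
    (h : W.IsResiduallyModularOfLevel P.p N) : P.ModularRepOfLevel N := by
  obtain ⟨f, 𝔪, hf, hmax, hp, hcong⟩ := h
  exact ⟨f, W, 𝔪, hf, hW, hmax, hp, hcong⟩

/-- Characteristic-zero modularity of level `N` implies residual modularity of level `N` at every
prime. -/
theorem isResiduallyModularOfLevel_of_isModularModelOfLevel {W : WeierstrassCurve ℤ} {p : ℕ}
    (hp : p.Prime) {N : ℕ} (h : W.IsModularModelOfLevel N) :
    W.IsResiduallyModularOfLevel p N := by
  obtain ⟨f, hf, hcoef⟩ := h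
  obtain ⟨𝔪, hmax, hpm⟩ := FLTPrelim.exists_maximalIdeal_natCast_prime_mem hp
  refine ⟨f, 𝔪, hf, hmax, hpm, fun ℓ hℓ hgood hN _ => ?_⟩
  refine ⟨((W.apOfModel ℓ : ℤ) : integralClosure ℤ ℂ), ?_, ?_⟩
  · rw [hcoef ℓ hℓ hgood hN]
    simp
  · rw [sub_self]
    exact 𝔪.zero_mem

/-- Characteristic-zero modularity of an integral model of the Frey curve gives
`P.ModularRepOfLevel`. -/
theorem modularRepOfLevel_of_isModularModelOfLevel {W : WeierstrassCurve ℤ}
    (hW : W.IsIntegralModelOf P.freyCurve) {N : ℕ}
    (h : W.IsModularModelOfLevel N) : P.ModularRepOfLevel N :=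
  modularRepOfLevel_of_isResiduallyModularOfLevel P hW
    (isResiduallyModularOfLevel_of_isModularModelOfLevel P.pp h)

/-- A positive squarefree `N` all of whose prime divisors are bad for the integral Frey model is a
conductor level. -/
theorem isConductorLevel_of_bad {N : ℕ} (hpos : 0 < N) (hsq : Squarefree N)
    (hbad : ∀ q : ℕ, q.Prime → q ∣ N → (q : ℤ) ∣ P.freyCurveInt.Δ) : P.IsConductorLevel N :=
  ⟨hpos, hsq, fun q hq hqN => prime_dvd_abc_of_dvd_Δ P hq (hbad q hq hqN)⟩

/-- `rad |Δ|` of the integral Frey model is a conductor level. -/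
theorem isConductorLevel_conductorLevel : P.IsConductorLevel P.freyCurveInt.conductorLevel :=
  isConductorLevel_of_bad P (conductorLevel_pos _) (squarefree_conductorLevel _)
    fun _ hq hqN =>
      (prime_dvd_conductorLevel_iff _ (freyCurveInt_Δ_ne_zero P) hq).mp hqN

/-- Route R1: the output of modularity lifting at the exact conductor level for the integral Frey
model gives S06. -/
theorem s06_of_exactConductorLevel
    (h : Mlc1IsModularModelOfExactConductorLevel P.freyCurveInt) :
    ∃ N : ℕ, P.IsConductorLevel N ∧ P.ModularRepOfLevel N := by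
  obtain ⟨N, hpos, hsq, hiff, hmod⟩ := h
  exact ⟨N, isConductorLevel_of_bad P hpos hsq fun q hq hqN => (hiff q hq).mp hqN,
    modularRepOfLevel_of_isModularModelOfLevel P (freyCurveInt_isIntegralModelOf P) hmod⟩

/-- Route R2: modularity of the integral Frey model at `rad |Δ|` gives S06. -/
theorem s06_of_conductorLevel
    (h : P.freyCurveInt.IsModularModelOfLevel P.freyCurveInt.conductorLevel) :
    ∃ N : ℕ, P.IsConductorLevel N ∧ P.ModularRepOfLevel N :=
  ⟨_, isConductorLevel_conductorLevel P,
    modularRepOfLevel_of_isModularModelOfLevel P (freyCurveInt_isIntegralModelOf P) h⟩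

/-- Residual version: residual modularity at `P.p` of the integral Frey model at a positive
squarefree level supported on its bad primes gives S06. -/
theorem s06_of_residual {N : ℕ} (hpos : 0 < N) (hsq : Squarefree N)
    (hbad : ∀ q : ℕ, q.Prime → q ∣ N → (q : ℤ) ∣ P.freyCurveInt.Δ)
    (h : P.freyCurveInt.IsResiduallyModularOfLevel P.p N) :
    ∃ N : ℕ, P.IsConductorLevel N ∧ P.ModularRepOfLevel N :=
  ⟨N, isConductorLevel_of_bad P hpos hsq hbad,
    modularRepOfLevel_of_isResiduallyModularOfLevel P (freyCurveInt_isIntegralModelOf P) h⟩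

end Fermat.Agent.S06.Glue
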