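/-
S06 wiring (helper80): the S06 statement from the TYPES of S50, S51, S52, S59 and the level-3 gap
(`Fermat.Agent.S60W.Stmt50/Stmt51/Stmt52/Stmt59/StmtGap` of `Fermat/Agent/S60/Wiring.lean`), via
exact-conductor-level modularity of the integral Frey model.  Sorry-free; S06 itself becomes a
one-liner once those inputs are theorems.
-/
import Fermat.Agent.S60.Wiring
import Fermat.Agent.S06.Glue

set_option autoImplicit false

namespace Fermat.Agent.S06.Wiring

open WeierstrassCurve
open Fermat.Agent.S60W

/-- Exact-conductor-level modularity of every semistable integral Weierstrass curve from the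
types of S50, S51, S52, S59 and the level-3 gap (this is what `S60W.modular_of_inputs` proves
internally). -/
theorem mlc1_of_inputs (H50 : Stmt50) (H51 : Stmt51) (H52 : Stmt52) (H59 : Stmt59)
    (HGAP : StmtGap) (W : WeierstrassCurve ℤ) (hΔ : W.Δ ≠ 0) (hW : W.IsSemistableModel) :
    Mlc1IsModularModelOfExactConductorLevel W := by
  rcases H51 W hΔ hW with h3 | h5
  · exact mlc1_of_irreducible_three H50 H59 HGAP W hΔ hW h3
  · obtain ⟨W', hΔ', hW', h3', hcong⟩ := H52 W hΔ hW h5
    have hmod' := mlc1_of_irreducible_three H50 H59 HGAP W' hΔ' hW' h3'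
    obtain ⟨N, hN, hsq, hres⟩ := residuallyModular_five_of_congr hmod' hcong
    have : NeZero N := ⟨hN.ne'⟩
    exact H59 5 (Or.inr rfl) W hΔ hW h5 N hres
      (not_sq_dvd_of_squarefree hsq (by norm_num))
      (fun q hq _ => not_cube_dvd_of_squarefree hsq hq)

/-- The S06 statement from the types of S50, S51, S52, S59 and the level-3 gap. -/
theorem s06_of_inputs (H50 : Stmt50) (H51 : Stmt51) (H52 : Stmt52) (H59 : Stmt59)
    (HGAP : StmtGap) (P : FreyPackage) :
    ∃ N : ℕ, P.IsConductorLevel N ∧ P.ModularRepOfLevel N :=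
  Fermat.Agent.S06.Glue.s06_of_exactConductorLevel P
    (mlc1_of_inputs H50 H51 H52 H59 HGAP P.freyCurveInt
      (Fermat.Agent.S06.FreyModel.freyCurveInt_Δ_ne_zero P)
      (Fermat.Agent.S06.FreyModel.freyCurveInt_isSemistableModel P))

end Fermat.Agent.S06.Wiring
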